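import Mathlib

/-!
# Weighted Eisenstein series

For a bounded weight function `w : (Fin 2 → ℤ) → ℂ` we consider the weighted Eisenstein series
`wEis k w z = ∑' v, w v * (v 0 * z + v 1) ^ (-k)`; it is holomorphic, bounded at `i∞`, and the
slash action permutes the weights.
-/

set_option autoImplicit false

noncomputable section

namespace Fermat.Agent.Support

open UpperHalfPlane EisensteinSeries ModularForm Filter Topology
open scoped MatrixGroups Manifold

/-- row vector times matrix -/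
def vmul (v : Fin 2 → ℤ) (γ : SL(2, ℤ)) : Fin 2 → ℤ :=
  Matrix.vecMul v (γ : Matrix (Fin 2) (Fin 2) ℤ)

theorem vmul_mul (v : Fin 2 → ℤ) (γ δ : SL(2, ℤ)) : vmul v (γ * δ) = vmul (vmul v γ) δ := by
  simp [vmul, Matrix.vecMul_vecMul]

@[simp] theorem vmul_one (v : Fin 2 → ℤ) : vmul v 1 = v := by simp [vmul]

/-- right multiplication by an element of `SL(2, ℤ)` as an equivalence -/
def vmulEquiv (γ : SL(2, ℤ)) : (Fin 2 → ℤ) ≃ (Fin 2 → ℤ) where
  toFun v := vmul v γ
  invFun v := vmul v γ⁻¹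
  left_inv v := by simp [← vmul_mul]
  right_inv v := by simp [← vmul_mul]

@[simp] theorem vmulEquiv_apply (γ : SL(2, ℤ)) (v : Fin 2 → ℤ) : vmulEquiv γ v = vmul v γ := rfl

/-- The weighted Eisenstein series. -/
def wEis (k : ℤ) (w : (Fin 2 → ℤ) → ℂ) (z : ℍ) : ℂ := ∑' v : Fin 2 → ℤ, w v * eisSummand k v z

variable {k : ℤ} {w : (Fin 2 → ℤ) → ℂ} {C : ℝ}

theorem summable_wEis (hk : 3 ≤ k) (hw : ∀ v, ‖w v‖ ≤ C) (z : ℍ) :
    Summable fun v : Fin 2 → ℤ => w v * eisSummand k v z := by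
  refine Summable.of_norm_bounded ((summable_norm_eisSummand hk z).mul_left C) fun v => ?_
  rw [norm_mul]
  exact mul_le_mul_of_nonneg_right (hw v) (norm_nonneg _)

theorem norm_wEis_le (hk : 3 ≤ k) (hw : ∀ v, ‖w v‖ ≤ C) (z : ℍ) :
    ‖wEis k w z‖ ≤ C * ∑' v : Fin 2 → ℤ, ‖eisSummand k v z‖ := by
  have hsum := (summable_wEis hk hw z)
  refine (norm_tsum_le_tsum_norm hsum.norm).trans ?_
  rw [← tsum_mul_left]
  refine Summable.tsum_le_tsum (fun v => ?_) hsum.norm ((summable_norm_eisSummand hk z).mul_left C)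
  rw [norm_mul]
  exact mul_le_mul_of_nonneg_right (hw v) (norm_nonneg _)

theorem wEis_smul (k : ℤ) (w : (Fin 2 → ℤ) → ℂ) (γ : SL(2, ℤ)) (z : ℍ) :
    wEis k w (γ • z) = denom γ z ^ k * wEis k (fun v => w (vmul v γ⁻¹)) z := by
  have h1 : ∀ v, w v * eisSummand k v (γ • z) =
      denom γ z ^ k * (w v * eisSummand k (vmul v γ) z) := fun v => by
    rw [eisSummand_SL2_apply]
    simp only [vmul]
    ring
  simp only [wEis]
  simp_rw [h1]
  rw [tsum_mul_left]
  congr 1
  rw [← (vmulEquiv γ).tsum_eq (fun v => w (vmul v γ⁻¹) * eisSummand k v z)]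
  refine tsum_congr fun v => ?_
  simp [← vmul_mul]

theorem wEis_slash (k : ℤ) (w : (Fin 2 → ℤ) → ℂ) (γ : SL(2, ℤ)) :
    wEis k w ∣[k] γ = wEis k (fun v => w (vmul v γ⁻¹)) := by
  ext1 z
  rw [SL_slash_apply, wEis_smul, mul_comm, ← mul_assoc, ← zpow_add₀ (denom_ne_zero _ z),
    neg_add_cancel, zpow_zero, one_mul]

/-- in vertical strips the weighted Eisenstein series converges uniformly -/
theorem wEis_tendstoLocallyUniformly (hk : 3 ≤ k) (hw : ∀ v, ‖w v‖ ≤ C) :
    TendstoLocallyUniformly (fun (s : Finset (Fin 2 → ℤ)) z => ∑ v ∈ s, w v * eisSummand k v z)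
      (wEis k w) atTop := by
  have hC : 0 ≤ C := (norm_nonneg _).trans (hw 0)
  have hk' : (2 : ℝ) < k := by norm_cast
  have p_sum : Summable fun v : Fin 2 → ℤ ↦ ‖v‖ ^ (-k) := mod_cast (summable_one_div_norm_rpow hk')
  simp only [tendstoLocallyUniformly_iff_forall_isCompact]
  intro K hK
  obtain ⟨A, B, hB, HABK⟩ := subset_verticalStrip_of_isCompact hK
  refine (tendstoUniformlyOn_tsum (hu := (p_sum.mul_left <| r ⟨⟨A, B⟩, hB⟩ ^ (-k : ℝ)).mul_left C)
    (fun p z hz ↦ ?_)).mono HABK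
  rw [norm_mul]
  refine mul_le_mul (hw p) ?_ (norm_nonneg _) hC
  simpa only [eisSummand, one_div, ← zpow_neg, norm_zpow, ← Real.rpow_intCast,
    Int.cast_neg] using summand_bound_of_mem_verticalStrip (by positivity) p hB hz

theorem wEis_tendstoLocallyUniformlyOn (hk : 3 ≤ k) (hw : ∀ v, ‖w v‖ ≤ C) :
    TendstoLocallyUniformlyOn (fun (s : Finset (Fin 2 → ℤ)) ↦
      ↑ₕ(fun (z : ℍ) ↦ ∑ v ∈ s, w v * eisSummand k v z)) (↑ₕ(wEis k w))
          Filter.atTop {z : ℂ | 0 < z.im} := by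
  rw [← upperHalfPlaneSet, ← range_coe, ← Set.image_univ]
  apply TendstoLocallyUniformlyOn.comp (s := ⊤) _ _ _ (OpenPartialHomeomorph.continuousOn_symm _)
  · simp only [Set.top_eq_univ, tendstoLocallyUniformlyOn_univ]
    apply wEis_tendstoLocallyUniformly hk hw
  · simp only [IsOpenEmbedding.toOpenPartialHomeomorph_target, Set.top_eq_univ, Set.mapsTo_range_iff,
    Set.mem_univ, forall_const]

theorem wEis_mdifferentiable (hk : 3 ≤ k) (hw : ∀ v, ‖w v‖ ≤ C) : MDiff (wEis k w) := by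
  intro τ
  suffices DifferentiableAt ℂ (↑ₕ(wEis k w)) τ.1 by
    convert!
      MDifferentiableAt.comp τ (DifferentiableAt.mdifferentiableAt this) τ.mdifferentiable_coe
    exact funext fun z ↦ (comp_ofComplex (wEis k w) z).symm
  refine DifferentiableOn.differentiableAt ?_ (isOpen_upperHalfPlaneSet.mem_nhds τ.2)
  refine (wEis_tendstoLocallyUniformlyOn hk hw).differentiableOn
    (Eventually.of_forall fun s ↦ ?_) isOpen_upperHalfPlaneSet
  have : (↑ₕ(fun (z : ℍ) ↦ ∑ v ∈ s, w v * eisSummand k v z)) =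
      fun z => ∑ v ∈ s, w v * (↑ₕ(eisSummand k v)) z := rfl
  rw [this]
  exact DifferentiableOn.fun_sum fun v _ ↦
    (eisSummand_extension_differentiableOn _ _).const_mul _

end Fermat.Agent.Support
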